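/-
helper38 (P-CFT / LOCAL, row 828 INV-COMPAT, sub-lead helper78), part 1 (tools): compatibility of the canonical
local invariant with the tower of unramified extensions:
`Fermat.Agent.H78.CFT.InvCompatStatement` (`j / m = j m' / (m m')`) and
`Fermat.Agent.H78.CFT.InvDescendStatement` (the converse).

Math: `C = ⟨φ'⟩` cyclic of order `N = m m'` (`φ'` the Frobenius of `unramExt q E N`), with quotient
`⟨φ⟩` of order `m`.  With `y (g) = a ^ ⌊i / m⌋`, `g|_{F_N} = φ' ^ i`, `0 ≤ i < N`:
`y (g h) * u_N (g, h) ^ m' = y g * y h * u_m (g, h)`, since both exponents are `⌊(i + j) / m⌋`.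
-/
import Fermat.Agent.H78.CFT.LocalInvRows
import Fermat.Agent.H75.Inf2Tower

set_option autoImplicit false
set_option linter.style.haveILetI false
set_option synthInstance.maxHeartbeats 400000

noncomputable section

namespace Fermat.Agent.H38.Cft

open Fermat.Agent.H13.Cft Fermat.Agent.H78.CFT groupCohomology
open Fermat.Agent.H49.Unram Fermat.Agent.H61.CFT Fermat.Agent.H81.Local

/-! ### Arithmetic -/

theorem nat_add_div_eq (m i j : ℕ) (hm : 0 < m) :
    (i + j) / m = i / m + j / m + (i % m + j % m) / m := by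
  have h : i + j = i % m + j % m + m * (i / m + j / m) := by
    have h1 := Nat.div_add_mod i m
    have h2 := Nat.div_add_mod j m
    rw [Nat.mul_add]
    omega
  rw [h, Nat.add_mul_div_left _ _ hm]
  omega

theorem nat_tower_div_eq (m m' k : ℕ) (hm : 0 < m) :
    k / m = (k % (m * m')) / m + m' * (k / (m * m')) := by
  have h : k = k % (m * m') + m * (m' * (k / (m * m'))) := by
    have h1 := Nat.div_add_mod k (m * m')
    rw [← Nat.mul_assoc]
    omega
  conv_lhs => rw [h]
  rw [Nat.add_mul_div_left _ _ hm]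

theorem nat_floor_identity (m m' i j : ℕ) (hm : 0 < m) :
    ((i + j) % (m * m')) / m + (i + j) / (m * m') * m'
      = i / m + j / m + (i % m + j % m) / m := by
  rw [Nat.mul_comm ((i + j) / (m * m')) m', ← nat_tower_div_eq m m' (i + j) hm,
    nat_add_div_eq m i j hm]

/-! ### An identity in commutative groups -/

theorem commGroup_tower_identity {M : Type*} [CommGroup M] (Y Yg Yh U V : M)
    (key : Y * V = Yg * Yh * U) : Yh⁻¹ * Yg⁻¹ / Y⁻¹ = U / V := by
  have hV : V = Y⁻¹ * (Yg * Yh * U) := by rw [← key, inv_mul_cancel_left]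
  rw [hV]
  have h : ∀ (y yg yh u : Additive M), -yh + -yg - -y = u - (-y + (yg + yh + u)) := by
    intros; abel
  exact h (Additive.ofMul Y) (Additive.ofMul Yg) (Additive.ofMul Yh) (Additive.ofMul U)

theorem commGroup_div_zpow_mul {M : Type*} [CommGroup M] (c u v : M) (j : ℤ) (m' : ℕ) :
    c / v ^ (j * (m' : ℤ)) = c / u ^ j * (u / v ^ m') ^ j := by
  rw [div_zpow, ← zpow_natCast v m', ← zpow_mul, mul_comm (m' : ℤ) j, div_mul_div_cancel]

theorem commGroup_div_zpow_mul' {M : Type*} [CommGroup M] (c u v : M) (j : ℤ) (m' : ℕ) :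
    c / u ^ j = c / v ^ (j * (m' : ℤ)) * ((u / v ^ m') ^ j)⁻¹ := by
  rw [commGroup_div_zpow_mul c u v j m', mul_inv_cancel_right]

/-! ### Formal properties of level coboundaries -/

theorem isLvlMulCoboundary₂E_zpow {E : IntermediateField ℚ Qb}
    {c : E.fixingSubgroup × E.fixingSubgroup → Qbˣ} (h : IsLvlMulCoboundary₂E E c) (j : ℤ) :
    IsLvlMulCoboundary₂E E (fun x => c x ^ j) := by
  obtain ⟨x, ⟨N, hN, hxN⟩, hx⟩ := h
  refine ⟨fun g => x g ^ j, ⟨N, hN, fun g n hn => ?_⟩, fun gh => ?_⟩
  · show x (g * n) ^ j = x g ^ j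
    rw [hxN g n hn]
  · show mulD₁E E (fun g => x g ^ j) gh = c gh ^ j
    rw [← hx gh]
    simp only [mulD₁E, map_zpow]
    rw [div_zpow, mul_zpow]

/-! ### The tower of Frobenius elements -/

section tower

variable {q : ℕ} [Fact q.Prime] {E : IntermediateField ℚ Qb}

theorem isFrobE_pos {m : ℕ} {φ : unramExt q E m ≃ₐ[E] unramExt q E m} (hφ : IsFrobE q E m φ) :
    0 < m := by
  haveI := hφ.finiteDimensional
  have h3 : 0 < Module.finrank E (unramExt q E m) := Module.finrank_pos
  rwa [hφ.finrank_eq] at h3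

theorem isFrobE_isGen {m : ℕ} {φ : unramExt q E m ≃ₐ[E] unramExt q E m}
    (hφ : IsFrobE q E m φ) : IsGen φ := by
  refine ⟨?_, fun x => ?_⟩
  · rw [hφ.orderOf_eq]
    exact isFrobE_pos hφ
  · have h1 : 0 < orderOf φ := by
      rw [hφ.orderOf_eq]
      exact isFrobE_pos hφ
    have h2 : IsOfFinOrder φ := orderOf_pos_iff.mp h1
    have h3 := hφ.gen x
    rw [← h2.mem_powers_iff_mem_zpowers] at h3
    exact (Submonoid.mem_powers_iff _ _).1 h3

theorem frob_pow_restrict {m n : ℕ} (hmn : m ∣ n)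
    {φ : unramExt q E m ≃ₐ[E] unramExt q E m} {φ' : unramExt q E n ≃ₐ[E] unramExt q E n}
    (hφ : IsFrobE q E m φ) (hφ' : IsFrobE q E n φ') (i : ℕ) (y : unramExt q E m) :
    (((φ' ^ i) (IntermediateField.inclusion (unramExt_mono E hmn) y) : unramExt q E n) : Qb) =
      (((φ ^ i) y : unramExt q E m) : Qb) := by
  induction i with
  | zero =>
    rw [pow_zero, pow_zero, AlgEquiv.one_apply, AlgEquiv.one_apply,
      IntermediateField.coe_inclusion]
  | succ i ih =>
    rw [pow_succ', pow_succ', AlgEquiv.mul_apply, AlgEquiv.mul_apply]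
    have h1 : (φ' ^ i) (IntermediateField.inclusion (unramExt_mono E hmn) y) =
        IntermediateField.inclusion (unramExt_mono E hmn) ((φ ^ i) y) := by
      apply Subtype.ext
      rw [ih, IntermediateField.coe_inclusion]
    rw [h1]
    exact frob_unramExt_restrict hmn hφ hφ' _

end tower

end Fermat.Agent.H38.Cft
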