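/-
helper38 (P-CFT / LOCAL, row 828 INV-COMPAT, sub-lead helper78), part 2: the cochain identity
in the tower of unramified extensions and the statements
`Fermat.Agent.H78.CFT.InvCompatStatement`, `Fermat.Agent.H78.CFT.InvDescendStatement`.
-/
import Fermat.Agent.H38.Cft.InvCompatBasic

set_option autoImplicit false
set_option linter.style.haveILetI false
set_option synthInstance.maxHeartbeats 400000

noncomputable section

namespace Fermat.Agent.H38.Cft

open Fermat.Agent.H13.Cft Fermat.Agent.H78.CFT groupCohomology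
open Fermat.Agent.H49.Unram Fermat.Agent.H61.CFT Fermat.Agent.H81.Local

section tower

variable {q : ℕ} [Fact q.Prime] {E : IntermediateField ℚ Qb}

theorem resEF_tower_apply {m n : ℕ} (hmn : m ∣ n) (g : E.fixingSubgroup) (y : unramExt q E m) :
    ((resEF E (unramExt q E m) g y : unramExt q E m) : Qb) =
    ((resEF E (unramExt q E n) g (IntermediateField.inclusion (unramExt_mono E hmn) y) :
      unramExt q E n) : Qb) := by
  rw [Fermat.Agent.H75.Inf2.resEF_apply, Fermat.Agent.H75.Inf2.resEF_apply,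
    IntermediateField.coe_inclusion]

theorem resEF_tower_eq_pow {m n : ℕ} (hmn : m ∣ n)
    {φ : unramExt q E m ≃ₐ[E] unramExt q E m} {φ' : unramExt q E n ≃ₐ[E] unramExt q E n}
    (hφ : IsFrobE q E m φ) (hφ' : IsFrobE q E n φ') (g : E.fixingSubgroup) (i : ℕ)
    (hi : φ' ^ i = resEF E (unramExt q E n) g) :
    resEF E (unramExt q E m) g = φ ^ i := by
  apply AlgEquiv.ext
  intro y
  apply Subtype.ext
  rw [← frob_pow_restrict hmn hφ hφ', hi]
  exact resEF_tower_apply hmn g y

/-- The discrete logarithms of the restrictions of `g` in the tower. -/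
theorem dlog_resEF_tower {m n : ℕ} (hmn : m ∣ n)
    {φ : unramExt q E m ≃ₐ[E] unramExt q E m} {φ' : unramExt q E n ≃ₐ[E] unramExt q E n}
    (hφ : IsFrobE q E m φ) (hφ' : IsFrobE q E n φ') (g : E.fixingSubgroup) :
    dlog φ (resEF E (unramExt q E m) g) = dlog φ' (resEF E (unramExt q E n) g) % m := by
  have h1 := resEF_tower_eq_pow hmn hφ hφ' g _
    ((isFrobE_isGen hφ').pow_dlog (resEF E (unramExt q E n) g))
  have h2 := dlog_pow' (isFrobE_isGen hφ).1 (dlog φ' (resEF E (unramExt q E n) g))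
  rw [hφ.orderOf_eq] at h2
  rw [h1]
  exact h2

/-- The image in `ℚ̄ˣ` of a unit of `E`. -/
def unitQb (E : IntermediateField ℚ Qb) : Eˣ →* Qbˣ :=
  Units.map ((algebraMap E Qb : E →+* Qb) : E →* Qb)

theorem actU_unitQb (g : E.fixingSubgroup) (a : Eˣ) :
    actU (g : Qb ≃ₐ[ℚ] Qb) (unitQb E a) = unitQb E a := by
  apply Units.ext
  show (g : Qb ≃ₐ[ℚ] Qb) ((a : E) : Qb) = ((a : E) : Qb)
  exact (IntermediateField.mem_fixingSubgroup_iff _ _).1 g.2 _ (a : E).2

theorem unramCocycle_apply {m : ℕ} {φ : unramExt q E m ≃ₐ[E] unramExt q E m}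
    (hφ : IsFrobE q E m φ) (a : Eˣ) (g h : E.fixingSubgroup) :
    unramCocycle q E m φ a (g, h) =
      unitQb E a ^ ((dlog φ (resEF E (unramExt q E m) g) +
        dlog φ (resEF E (unramExt q E m) h)) / m) := by
  unfold unramCocycle inflE
  simp only [stdCocycle_apply, map_pow, hφ.orderOf_eq]
  rfl

/-- The 1-cochain `g ↦ a ^ ⌊i / m⌋`, `g|_{F_N} = φ' ^ i`. -/
def towerCochain (q : ℕ) [Fact q.Prime] (E : IntermediateField ℚ Qb) (m n : ℕ)
    (φ' : unramExt q E n ≃ₐ[E] unramExt q E n) (a : Eˣ) : E.fixingSubgroup → Qbˣ :=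
  fun g => unitQb E a ^ (dlog φ' (resEF E (unramExt q E n) g) / m)

theorem towerCochain_isLvl {m n : ℕ} {φ' : unramExt q E n ≃ₐ[E] unramExt q E n}
    (hφ' : IsFrobE q E n φ') (a : Eˣ) : IsLvlFun₁ (lvlE E) (towerCochain q E m n φ' a) := by
  haveI := hφ'.finiteDimensional
  refine ⟨(resEF E (unramExt q E n)).ker,
    Fermat.Agent.H75.Inf2.ker_resEF_mem_lvl E (unramExt q E n), fun g k hk => ?_⟩
  unfold towerCochain
  rw [map_mul, MonoidHom.mem_ker.1 hk, mul_one]

theorem actU_towerCochain {m n : ℕ} (φ' : unramExt q E n ≃ₐ[E] unramExt q E n) (a : Eˣ)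
    (g h : E.fixingSubgroup) :
    actU (g : Qb ≃ₐ[ℚ] Qb) (towerCochain q E m n φ' a h) = towerCochain q E m n φ' a h := by
  unfold towerCochain
  rw [map_pow, actU_unitQb]

/-- **The cochain identity**: `y (g h) * u_N (g, h) ^ m' = y g * y h * u_m (g, h)`. -/
theorem towerCochain_identity {m m' : ℕ}
    {φ : unramExt q E m ≃ₐ[E] unramExt q E m}
    {φ' : unramExt q E (m * m') ≃ₐ[E] unramExt q E (m * m')}
    (hφ : IsFrobE q E m φ) (hφ' : IsFrobE q E (m * m') φ') (a : Eˣ) (g h : E.fixingSubgroup) :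
    towerCochain q E m (m * m') φ' a (g * h) * unramCocycle q E (m * m') φ' a (g, h) ^ m' =
      towerCochain q E m (m * m') φ' a g * towerCochain q E m (m * m') φ' a h *
        unramCocycle q E m φ a (g, h) := by
  have hm := isFrobE_pos hφ
  rw [unramCocycle_apply hφ, unramCocycle_apply hφ',
    dlog_resEF_tower (Dvd.intro m' rfl) hφ hφ' g, dlog_resEF_tower (Dvd.intro m' rfl) hφ hφ' h]
  unfold towerCochain
  rw [map_mul, (isFrobE_isGen hφ').dlog_mul, hφ'.orderOf_eq, ← pow_mul, ← pow_add, ← pow_add,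
    ← pow_add]
  congr 1
  exact nat_floor_identity m m' _ _ hm

/-- `u_m / u_N ^ m'` is a level coboundary. -/
theorem unramCocycle_tower_coboundary {m m' : ℕ}
    {φ : unramExt q E m ≃ₐ[E] unramExt q E m}
    {φ' : unramExt q E (m * m') ≃ₐ[E] unramExt q E (m * m')}
    (hφ : IsFrobE q E m φ) (hφ' : IsFrobE q E (m * m') φ') (a : Eˣ) :
    IsLvlMulCoboundary₂E E
      (fun x => unramCocycle q E m φ a x / unramCocycle q E (m * m') φ' a x ^ m') := by
  obtain ⟨N, hN, hlvl⟩ := towerCochain_isLvl (m := m) hφ' a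
  refine ⟨fun g => (towerCochain q E m (m * m') φ' a g)⁻¹, ⟨N, hN, fun g k hk => ?_⟩, ?_⟩
  · show (towerCochain q E m (m * m') φ' a (g * k))⁻¹ = (towerCochain q E m (m * m') φ' a g)⁻¹
    rw [hlvl g k hk]
  · rintro ⟨g, h⟩
    have key := towerCochain_identity hφ hφ' a g h
    show actU (g : Qb ≃ₐ[ℚ] Qb) (towerCochain q E m (m * m') φ' a h)⁻¹ *
        (towerCochain q E m (m * m') φ' a g)⁻¹ / (towerCochain q E m (m * m') φ' a (g * h))⁻¹ =
      unramCocycle q E m φ a (g, h) / unramCocycle q E (m * m') φ' a (g, h) ^ m'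
    rw [map_inv, actU_towerCochain]
    exact commGroup_tower_identity _ _ _ _ _ key

/-- `u_N ^ m' / u_m` is a level coboundary. -/
theorem unramCocycle_tower_coboundary' {m m' : ℕ}
    {φ : unramExt q E m ≃ₐ[E] unramExt q E m}
    {φ' : unramExt q E (m * m') ≃ₐ[E] unramExt q E (m * m')}
    (hφ : IsFrobE q E m φ) (hφ' : IsFrobE q E (m * m') φ') (a : Eˣ) :
    IsLvlMulCoboundary₂E E
      (fun x => (unramCocycle q E m φ a x / unramCocycle q E (m * m') φ' a x ^ m')⁻¹) :=
  (unramCocycle_tower_coboundary hφ hφ' a).inv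

end tower

/-- **[INV-COMPAT]** `j / m = j m' / (m m')`. -/
theorem invCompat : InvCompatStatement := by
  intro q _ E hE m m' hm' c j hc
  obtain ⟨π, φ, hπ, hφ, hcob⟩ := hc
  have hm := isFrobE_pos hφ
  obtain ⟨φ', hφ'⟩ := exists_isFrobE hE (Nat.mul_pos hm hm')
  refine ⟨π, φ', hπ, hφ', ?_⟩
  have h1 := hcob.mul (isLvlMulCoboundary₂E_zpow (unramCocycle_tower_coboundary hφ hφ' π) j)
  have h2 : (fun x => c x / unramCocycle q E (m * m') φ' π x ^ (j * (m' : ℤ))) =
      (fun x => c x / unramCocycle q E m φ π x ^ j *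
        (unramCocycle q E m φ π x / unramCocycle q E (m * m') φ' π x ^ m') ^ j) := by
    funext x
    exact commGroup_div_zpow_mul _ _ _ _ _
  rw [h2]
  exact h1

/-- **[INV-DESC]** an invariant `j m' / (m m')` is an invariant `j / m`. -/
theorem invDescend : InvDescendStatement := by
  intro q _ E hE m m' hm c j hc
  obtain ⟨π, φ', hπ, hφ', hcob⟩ := hc
  obtain ⟨φ, hφ⟩ := exists_isFrobE hE hm
  refine ⟨π, φ, hπ, hφ, ?_⟩
  have h1 := hcob.mul
    (isLvlMulCoboundary₂E_zpow (unramCocycle_tower_coboundary hφ hφ' π) j).inv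
  have h2 : (fun x => c x / unramCocycle q E m φ π x ^ j) =
      (fun x => c x / unramCocycle q E (m * m') φ' π x ^ (j * (m' : ℤ)) *
        ((unramCocycle q E m φ π x / unramCocycle q E (m * m') φ' π x ^ m') ^ j)⁻¹) := by
    funext x
    exact commGroup_div_zpow_mul' _ _ _ _ _
  rw [h2]
  exact h1

end Fermat.Agent.H38.Cft

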