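/-
helper38 (P-CFT / KD-9, row 587): exponents of invertible fractional ideals of a Dedekind
domain, the "prime-to-`T` part" endomorphism and the class subgroup generated by `T`.
-/
import Mathlib
import Fermat.Agent.H93.Cft.SelmerCount

set_option autoImplicit false

noncomputable section

namespace Fermat.Agent.H38.Cft

open IsDedekindDomain FractionalIdeal
open scoped nonZeroDivisors
open Fermat.Agent.H93.Selmer (primeUnit primeUnit_val rootIdeal rootIdeal_pow
  toAdd_valuationOfNeZero)

section Dedekind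

variable {R : Type*} [CommRing R] [IsDedekindDomain R] {K : Type*} [Field K] [Algebra R K]
  [IsFractionRing R K]

/-- The exponent of `v` in an invertible fractional ideal. -/
def cntU (v : HeightOneSpectrum R) (I : (FractionalIdeal R⁰ K)ˣ) : ℤ :=
  count K v (I : FractionalIdeal R⁰ K)

@[simp]
theorem cntU_one (v : HeightOneSpectrum R) : cntU v (1 : (FractionalIdeal R⁰ K)ˣ) = 0 :=
  count_one K v

theorem cntU_mul (v : HeightOneSpectrum R) (I J : (FractionalIdeal R⁰ K)ˣ) :
    cntU v (I * J) = cntU v I + cntU v J := by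
  unfold cntU
  rw [Units.val_mul, count_mul K v I.ne_zero J.ne_zero]

theorem cntU_inv (v : HeightOneSpectrum R) (I : (FractionalIdeal R⁰ K)ˣ) :
    cntU v I⁻¹ = -cntU v I := by
  unfold cntU
  rw [Units.val_inv_eq_inv_val, count_inv]

theorem cntU_pow (v : HeightOneSpectrum R) (I : (FractionalIdeal R⁰ K)ˣ) (n : ℕ) :
    cntU v (I ^ n) = n * cntU v I := by
  unfold cntU
  rw [Units.val_pow_eq_pow_val, count_pow]

theorem cntU_zpow (v : HeightOneSpectrum R) (I : (FractionalIdeal R⁰ K)ˣ) (n : ℤ) :
    cntU v (I ^ n) = n * cntU v I := by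
  unfold cntU
  rw [Units.val_zpow_eq_zpow_val, count_zpow]

open scoped Classical in
theorem cntU_primeUnit (v w : HeightOneSpectrum R) :
    cntU v (primeUnit K w) = if w = v then 1 else 0 := by
  unfold cntU
  rw [primeUnit_val]
  exact count_maximal K v w

theorem cntU_prod {ι : Type*} (v : HeightOneSpectrum R) (s : Finset ι)
    (f : ι → (FractionalIdeal R⁰ K)ˣ) :
    cntU v (∏ i ∈ s, f i) = ∑ i ∈ s, cntU v (f i) := by
  classical
  induction s using Finset.induction with
  | empty => simp
  | insert i s hi ih => rw [Finset.prod_insert hi, Finset.sum_insert hi, cntU_mul, ih]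

/-- Unique factorisation: an invertible ideal is determined by its exponents. -/
theorem cntU_ext {I J : (FractionalIdeal R⁰ K)ˣ} (h : ∀ v, cntU v I = cntU v J) : I = J := by
  apply Units.ext
  rw [← finprod_heightOneSpectrum_factorization' K I.ne_zero,
    ← finprod_heightOneSpectrum_factorization' K J.ne_zero]
  refine finprod_congr fun v => ?_
  have := h v
  unfold cntU at this
  rw [this]

/-- The group of invertible ideals is torsion-free. -/
theorem units_pow_injective {n : ℕ} (hn : n ≠ 0) {I J : (FractionalIdeal R⁰ K)ˣ}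
    (h : I ^ n = J ^ n) : I = J := by
  apply cntU_ext
  intro v
  have h1 := congrArg (cntU v) h
  rw [cntU_pow, cntU_pow] at h1
  exact mul_left_cancel₀ (Int.natCast_ne_zero.mpr hn) h1

theorem cntU_toPrincipalIdeal (v : HeightOneSpectrum R) (x : Kˣ) :
    cntU v (toPrincipalIdeal R K x) = -Multiplicative.toAdd (v.valuationOfNeZero x) := by
  unfold cntU
  rw [coe_toPrincipalIdeal, toAdd_valuationOfNeZero, neg_neg]

variable (T : Finset (HeightOneSpectrum R))

/-- The `T`-part of an invertible ideal. -/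
def tPart (J : (FractionalIdeal R⁰ K)ˣ) : (FractionalIdeal R⁰ K)ˣ :=
  ∏ v ∈ T, primeUnit K v ^ cntU v J

open scoped Classical in
theorem cntU_tPart (w : HeightOneSpectrum R) (J : (FractionalIdeal R⁰ K)ˣ) :
    cntU w (tPart T J) = if w ∈ T then cntU w J else 0 := by
  unfold tPart
  rw [cntU_prod]
  simp only [cntU_zpow, cntU_primeUnit, mul_ite, mul_one, mul_zero]
  rw [Finset.sum_ite_eq' T w]

open scoped Classical in
/-- The prime-to-`T` part of an invertible ideal, as an endomorphism. -/
def primeToT : (FractionalIdeal R⁰ K)ˣ →* (FractionalIdeal R⁰ K)ˣ :=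
  MonoidHom.mk' (fun J => J * (tPart T J)⁻¹) (by
    intro I J
    apply cntU_ext
    intro v
    simp only [cntU_mul, cntU_inv, cntU_tPart]
    split_ifs <;> ring)

theorem primeToT_apply (J : (FractionalIdeal R⁰ K)ˣ) :
    primeToT T J = J * (tPart T J)⁻¹ := rfl

open scoped Classical in
theorem cntU_primeToT (w : HeightOneSpectrum R) (J : (FractionalIdeal R⁰ K)ˣ) :
    cntU w (primeToT T J) = if w ∈ T then 0 else cntU w J := by
  rw [primeToT_apply, cntU_mul, cntU_inv, cntU_tPart]
  split_ifs <;> ring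

theorem primeToT_idem (J : (FractionalIdeal R⁰ K)ˣ) :
    primeToT T (primeToT T J) = primeToT T J := by
  classical
  apply cntU_ext
  intro v
  simp only [cntU_primeToT]
  split_ifs <;> rfl

theorem mem_ker_primeToT {J : (FractionalIdeal R⁰ K)ˣ} :
    J ∈ (primeToT T : (FractionalIdeal R⁰ K)ˣ →* _).ker ↔ ∀ v, v ∉ T → cntU v J = 0 := by
  classical
  rw [MonoidHom.mem_ker]
  constructor
  · intro h v hv
    have h1 := congrArg (cntU v) h
    rwa [cntU_primeToT, if_neg hv, cntU_one] at h1
  · intro h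
    apply cntU_ext
    intro v
    rw [cntU_primeToT, cntU_one]
    split_ifs with hv
    · rfl
    · exact h v hv

theorem primeUnit_mem_ker_primeToT {v : HeightOneSpectrum R} (hv : v ∈ T) :
    primeUnit K v ∈ (primeToT T : (FractionalIdeal R⁰ K)ˣ →* _).ker := by
  classical
  rw [mem_ker_primeToT]
  intro w hw
  rw [cntU_primeUnit, if_neg]
  rintro rfl
  exact hw hv

theorem eq_tPart_of_mem_ker {J : (FractionalIdeal R⁰ K)ˣ}
    (hJ : J ∈ (primeToT T : (FractionalIdeal R⁰ K)ˣ →* _).ker) : J = tPart T J := by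
  rw [MonoidHom.mem_ker, primeToT_apply, mul_inv_eq_one] at hJ
  exact hJ

/-- `p`-th roots of prime-to-`T` parts. -/
theorem exists_pow_eq_primeToT {p : ℕ} (J : (FractionalIdeal R⁰ K)ˣ)
    (h : ∀ v, v ∉ T → (p : ℤ) ∣ cntU v J) :
    ∃ L : (FractionalIdeal R⁰ K)ˣ, L ^ p = primeToT T J := by
  classical
  refine ⟨rootIdeal p ((primeToT T J : (FractionalIdeal R⁰ K)ˣ) : FractionalIdeal R⁰ K),
    Units.ext ?_⟩
  apply rootIdeal_pow p (primeToT T J).ne_zero
  intro v
  have h1 := cntU_primeToT T v J
  unfold cntU at h1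
  rw [h1]
  split_ifs with hv
  · exact dvd_zero _
  · exact h v hv

theorem dvd_cntU_of_pow_eq_primeToT {p : ℕ} {J L : (FractionalIdeal R⁰ K)ˣ}
    (h : L ^ p = primeToT T J) (v : HeightOneSpectrum R) (hv : v ∉ T) :
    (p : ℤ) ∣ cntU v J := by
  classical
  have h1 := congrArg (cntU v) h
  rw [cntU_pow, cntU_primeToT, if_neg hv] at h1
  exact ⟨_, h1.symm⟩

/-! ### The class group -/

theorem classGroup_mk_surjective :
    Function.Surjective (ClassGroup.mk K : (FractionalIdeal R⁰ K)ˣ →* ClassGroup R) := by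
  intro c
  exact ClassGroup.induction K
    (P := fun c => ∃ I : (FractionalIdeal R⁰ K)ˣ, ClassGroup.mk K I = c) (fun I => ⟨I, rfl⟩) c

theorem classGroup_mk_ker :
    (ClassGroup.mk K : (FractionalIdeal R⁰ K)ˣ →* ClassGroup R).ker
      = (toPrincipalIdeal R K).range := by
  ext I
  rw [MonoidHom.mem_ker, ClassGroup.mk_eq_one_iff, mem_principal_ideals_iff]
  constructor
  · rintro ⟨x, hx⟩
    refine ⟨x, ?_⟩
    apply Subtype.coe_injective
    simp only [val_eq_coe, hx, coe_spanSingleton]
  · rintro ⟨x, hx⟩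
    exact ⟨⟨x, by rw [← hx, coe_spanSingleton]⟩⟩

theorem classGroup_mk_primeUnit (v : HeightOneSpectrum R) :
    ClassGroup.mk K (primeUnit K v)
      = ClassGroup.mk0 ⟨v.asIdeal, mem_nonZeroDivisors_of_ne_zero v.ne_bot⟩ := by
  rw [← ClassGroup.mk_mk0 K]
  congr 1

/-- The subgroup of the class group generated by the classes of the primes of `T` is the image
of the `T`-supported ideals. -/
theorem closure_eq_map_ker_primeToT :
    Subgroup.closure {c : ClassGroup R | ∃ v ∈ T, c = ClassGroup.mk0
      ⟨v.asIdeal, mem_nonZeroDivisors_of_ne_zero v.ne_bot⟩}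
      = (primeToT T : (FractionalIdeal R⁰ K)ˣ →* _).ker.map (ClassGroup.mk K) := by
  apply le_antisymm
  · rw [Subgroup.closure_le]
    rintro c ⟨v, hv, rfl⟩
    exact ⟨primeUnit K v, primeUnit_mem_ker_primeToT T hv, classGroup_mk_primeUnit v⟩
  · rintro c ⟨J, hJ, rfl⟩
    rw [eq_tPart_of_mem_ker T hJ, tPart, map_prod]
    refine Subgroup.prod_mem _ fun v hv => ?_
    rw [map_zpow]
    have hgen : ClassGroup.mk K (primeUnit K v) ∈ Subgroup.closure {c : ClassGroup R |
        ∃ v ∈ T, c = ClassGroup.mk0 ⟨v.asIdeal, mem_nonZeroDivisors_of_ne_zero v.ne_bot⟩} :=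
      Subgroup.subset_closure ⟨v, hv, classGroup_mk_primeUnit v⟩
    exact Subgroup.zpow_mem _ hgen _

end Dedekind

end Fermat.Agent.H38.Cft
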