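/-
helper38 (P-CFT / KD-9, row 587): abstract form of the exact sequence
`1 → U / U^p → V / G^p → (C / cl(S))[p] → 1`.

`G` = nonzero elements, `I` = invertible ideals (torsion-free), `C` = class group,
`π : G → I` principal ideals, `cl : I → C` surjective with kernel `π(G)`, `ρ : I → I` an
idempotent endomorphism ("prime-to-`T` part") with kernel `S` (the `T`-supported ideals).
`V = {a : ρ (π a) is a p-th power}`, `U = {a : ρ (π a) = 1}`, `P = G^p`.
Mathlib only.
-/
import Mathlib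

set_option autoImplicit false

noncomputable section

namespace Fermat.Agent.H38.Cft

section Abstract

variable {G I C : Type*} [CommGroup G] [CommGroup I] [CommGroup C]
variable (p : ℕ) (π : G →* I) (cl : I →* C) (ρ : I →* I)

/-- The abstract Selmer group `V = {a : ρ (π a) ∈ I ^ p}`. -/
def absV : Subgroup G := (powMonoidHom p : I →* I).range.comap (ρ.comp π)

/-- The abstract unit group `U = {a : ρ (π a) = 1}`. -/
def absU : Subgroup G := (ρ.comp π).ker

/-- The `p`-th powers. -/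
def absP (G : Type*) [CommGroup G] (p : ℕ) : Subgroup G := (powMonoidHom p : G →* G).range

variable {p π ρ}

theorem mem_absV {a : G} : a ∈ absV p π ρ ↔ ∃ J : I, J ^ p = ρ (π a) := by
  rw [absV, Subgroup.mem_comap, MonoidHom.mem_range]
  rfl

theorem mem_absU {a : G} : a ∈ absU π ρ ↔ ρ (π a) = 1 := by
  rw [absU, MonoidHom.mem_ker]
  rfl

theorem mem_absP {a : G} : a ∈ absP G p ↔ ∃ c : G, c ^ p = a := by
  rw [absP, MonoidHom.mem_range]
  rfl

variable (p π ρ)

theorem absP_le_absV : absP G p ≤ absV p π ρ := by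
  intro a ha
  obtain ⟨c, rfl⟩ := mem_absP.mp ha
  exact mem_absV.mpr ⟨ρ (π c), by rw [map_pow, map_pow]⟩

theorem absU_le_absV : absU π ρ ≤ absV p π ρ := by
  intro a ha
  exact mem_absV.mpr ⟨1, by rw [one_pow, mem_absU.mp ha]⟩

theorem absUP_le_absV : absU π ρ ⊔ absP G p ≤ absV p π ρ :=
  sup_le (absU_le_absV p π ρ) (absP_le_absV p π ρ)

/-- The chosen `p`-th root of `ρ (π a)`. -/
def absRoot (a : absV p π ρ) : I := (mem_absV.mp a.2).choose

theorem absRoot_pow (a : absV p π ρ) : absRoot p π ρ a ^ p = ρ (π (a : G)) :=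
  (mem_absV.mp a.2).choose_spec

variable {p} in
/-- `x * (ρ x)⁻¹` lies in the kernel of `ρ`. -/
theorem mul_inv_mem_ker (hρ : ∀ x, ρ (ρ x) = ρ x) (x : I) : x * (ρ x)⁻¹ ∈ ρ.ker := by
  rw [MonoidHom.mem_ker, map_mul, map_inv, hρ, mul_inv_cancel]

/-- `cl (ρ x)` and `cl x` agree modulo `cl (ker ρ)`. -/
theorem mk_cl_rho (hρ : ∀ x, ρ (ρ x) = ρ x) (x : I) :
    (QuotientGroup.mk (cl (ρ x)) : C ⧸ ρ.ker.map cl) = QuotientGroup.mk (cl x) := by
  rw [QuotientGroup.eq]
  refine ⟨x * (ρ x)⁻¹, mul_inv_mem_ker ρ hρ x, ?_⟩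
  rw [map_mul, map_inv, mul_comm]

variable (htf : ∀ x y : I, x ^ p = y ^ p → x = y)

/-- The homomorphism `V → C / cl(S)`, `a ↦ [ (ρ (π a))^(1/p) ]`. -/
def absPhi : absV p π ρ →* C ⧸ ρ.ker.map cl :=
  MonoidHom.mk' (fun a => QuotientGroup.mk (cl (absRoot p π ρ a))) (by
    intro a b
    rw [← QuotientGroup.mk_mul, ← map_mul]
    congr 2
    apply htf
    rw [mul_pow, absRoot_pow, absRoot_pow, absRoot_pow, Subgroup.coe_mul, map_mul, map_mul])

theorem absPhi_apply (a : absV p π ρ) :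
    absPhi p π cl ρ htf a = QuotientGroup.mk (cl (absRoot p π ρ a)) := rfl

include htf in
theorem absRoot_eq_of_pow {a : absV p π ρ} {J : I} (h : J ^ p = ρ (π (a : G))) :
    absRoot p π ρ a = J :=
  htf _ _ ((absRoot_pow p π ρ a).trans h.symm)

variable (hsurj : Function.Surjective cl) (hker : cl.ker = π.range)
  (hρ : ∀ x, ρ (ρ x) = ρ x)

include hker hρ in
theorem absPhi_ker :
    (absPhi p π cl ρ htf).ker = (absU π ρ ⊔ absP G p).subgroupOf (absV p π ρ) := by
  ext a
  rw [MonoidHom.mem_ker, absPhi_apply, Subgroup.mem_subgroupOf, QuotientGroup.eq_one_iff]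
  constructor
  · rintro ⟨s, hs, hsa⟩
    have hs1 : ρ s = 1 := hs
    have h1 : absRoot p π ρ a * s⁻¹ ∈ cl.ker := by
      rw [MonoidHom.mem_ker, map_mul, map_inv, hsa, mul_inv_cancel]
    rw [hker] at h1
    obtain ⟨x, hx⟩ := h1
    have hroot : ρ (absRoot p π ρ a) = absRoot p π ρ a := by
      apply htf
      rw [← map_pow, absRoot_pow, hρ]
    have hx2 : ρ (π x) = absRoot p π ρ a := by
      rw [hx, map_mul, map_inv, hs1, inv_one, mul_one, hroot]
    rw [Subgroup.mem_sup]
    refine ⟨(a : G) * (x ^ p)⁻¹, ?_, x ^ p, mem_absP.mpr ⟨x, rfl⟩, by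
      rw [inv_mul_cancel_right]⟩
    rw [mem_absU, map_mul, map_mul, map_inv, map_inv, map_pow, map_pow, hx2, absRoot_pow,
      mul_inv_cancel]
  · intro h
    rw [Subgroup.mem_sup] at h
    obtain ⟨u, hu, y, hy, huy⟩ := h
    obtain ⟨x, rfl⟩ := mem_absP.mp hy
    have hroot : absRoot p π ρ a = ρ (π x) := by
      apply absRoot_eq_of_pow p π ρ htf
      rw [← huy, map_mul, map_mul, mem_absU.mp hu, one_mul, map_pow, map_pow]
    rw [hroot]
    refine ⟨(π x * (ρ (π x))⁻¹)⁻¹, inv_mem (mul_inv_mem_ker ρ hρ _), ?_⟩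
    have hx1 : cl (π x) = 1 := by
      have : π x ∈ cl.ker := by
        rw [hker]
        exact ⟨x, rfl⟩
      exact this
    rw [map_inv, map_mul, map_inv, hx1, one_mul, inv_inv]

include hsurj hker hρ in
theorem absPhi_range (a : C ⧸ ρ.ker.map cl) :
    a ∈ (absPhi p π cl ρ htf).range ↔ a ^ p = 1 := by
  constructor
  · rintro ⟨a, rfl⟩
    rw [absPhi_apply, ← QuotientGroup.mk_pow, ← map_pow, absRoot_pow, mk_cl_rho cl ρ hρ,
      QuotientGroup.eq_one_iff]
    have : π (a : G) ∈ cl.ker := by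
      rw [hker]
      exact ⟨_, rfl⟩
    rw [MonoidHom.mem_ker] at this
    rw [this]
    exact one_mem _
  · intro ha
    induction a using QuotientGroup.induction_on with
    | H c =>
      obtain ⟨J, rfl⟩ := hsurj c
      rw [← QuotientGroup.mk_pow, QuotientGroup.eq_one_iff, ← map_pow] at ha
      obtain ⟨s, hs, hsJ⟩ := ha
      have hs1 : ρ s = 1 := hs
      have h1 : J ^ p * s⁻¹ ∈ cl.ker := by
        rw [MonoidHom.mem_ker, map_mul, map_inv, hsJ, mul_inv_cancel]
      rw [hker] at h1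
      obtain ⟨x, hx⟩ := h1
      have hx2 : (ρ J) ^ p = ρ (π x) := by
        rw [hx, map_mul, map_inv, hs1, inv_one, mul_one, map_pow]
      have hxV : x ∈ absV p π ρ := mem_absV.mpr ⟨ρ J, hx2⟩
      refine ⟨⟨x, hxV⟩, ?_⟩
      rw [absPhi_apply, absRoot_eq_of_pow p π ρ htf (a := ⟨x, hxV⟩) hx2, mk_cl_rho cl ρ hρ]

include htf hsurj hker hρ in
/-- The index of `U ⊔ P` in `V` is the number of classes of `C / cl(S)` killed by `p`. -/
theorem relIndex_absUP_absV :
    (absU π ρ ⊔ absP G p).relIndex (absV p π ρ) =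
      Nat.card {c : C ⧸ ρ.ker.map cl // c ^ p = 1} := by
  rw [Subgroup.relIndex, ← absPhi_ker p π cl ρ htf hker hρ, Subgroup.index_ker]
  refine Nat.card_congr (Equiv.subtypeEquivRight fun a => ?_)
  exact absPhi_range p π cl ρ htf hsurj hker hρ a

include htf hsurj hker hρ in
/-- **Abstract Selmer count**: `[V : P] = [U : U ∩ P] * #(C / cl(S))[p]`. -/
theorem relIndex_absP_absV :
    (absP G p).relIndex (absV p π ρ) =
      (absP G p).relIndex (absU π ρ) * Nat.card {c : C ⧸ ρ.ker.map cl // c ^ p = 1} := by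
  rw [← relIndex_absUP_absV p π cl ρ htf hsurj hker hρ,
    ← Subgroup.relIndex_sup_right (absU π ρ) (absP G p),
    Subgroup.relIndex_mul_relIndex _ _ _ le_sup_right (absUP_le_absV p π ρ)]

end Abstract

end Fermat.Agent.H38.Cft
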