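/-
helper38 (P-CFT / KD-9, row 587): the order of the Selmer group
`#(V_T / (Kˣ)^p) = p ^ (#{infinite places} + #T) * #Cl_T(K)[p]` for a number field `K ∋ ζ_p`
(`Fermat.Agent.H54.Cft.SelmerCountStatement`).

Exact sequence `1 → U_T / U_T^p → V_T / (Kˣ)^p → Cl_T[p] → 1` (abstract form in
`SelmerAbstract`), `S`-unit theorem in index form (`H43.Cft.powIndex_sUnits`).
-/
import Fermat.Agent.H38.Cft.SelmerAbstract
import Fermat.Agent.H38.Cft.IdealCount
import Fermat.Agent.H54.Cft.KummerInterfaces3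
import Fermat.Agent.H43.Cft.SUnit

set_option autoImplicit false

noncomputable section

namespace Fermat.Agent.H38.Cft

open IsDedekindDomain NumberField FractionalIdeal
open scoped nonZeroDivisors
open Fermat.Agent.H54.Cft (OrdDvdAt classSubgroupT ClT clTorsionCard SelmerCountStatement)
open Fermat.Agent.H43.Cft (SUnits powIndex powIndex_sUnits)

section NF

variable (K : Type) [Field K] [NumberField K] (T : Finset (HeightOneSpectrum (𝓞 K))) (p : ℕ)

/-- Principal ideals. -/
abbrev piK : Kˣ →* (FractionalIdeal (𝓞 K)⁰ K)ˣ := toPrincipalIdeal (𝓞 K) K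

/-- Ideal classes. -/
abbrev clK : (FractionalIdeal (𝓞 K)⁰ K)ˣ →* ClassGroup (𝓞 K) := ClassGroup.mk K

/-- Prime-to-`T` part. -/
abbrev rhoK : (FractionalIdeal (𝓞 K)⁰ K)ˣ →* (FractionalIdeal (𝓞 K)⁰ K)ˣ := primeToT T

theorem mem_absV_iff (a : Kˣ) :
    a ∈ absV p (piK K) (rhoK K T) ↔
      ∀ v : HeightOneSpectrum (𝓞 K), v ∉ T → OrdDvdAt p v a := by
  rw [mem_absV]
  constructor
  · rintro ⟨J, hJ⟩ v hv
    have h := dvd_cntU_of_pow_eq_primeToT T hJ v hv
    rw [cntU_toPrincipalIdeal] at h
    exact (Int.dvd_neg).mp h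
  · intro h
    apply exists_pow_eq_primeToT T
    intro v hv
    rw [cntU_toPrincipalIdeal]
    exact (Int.dvd_neg).mpr (h v hv)

theorem mem_sUnits_iff (x : Kˣ) :
    x ∈ SUnits K T ↔
      ∀ v : HeightOneSpectrum (𝓞 K), v ∉ T → Multiplicative.toAdd (v.valuationOfNeZero x) = 0 := by
  have key : ∀ v : HeightOneSpectrum (𝓞 K),
      v.valuation K (x : K) = 1 ↔ Multiplicative.toAdd (v.valuationOfNeZero x) = 0 := by
    intro v
    rw [← HeightOneSpectrum.valuationOfNeZero_eq, ← WithZero.coe_one, WithZero.coe_inj]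
    exact Iff.rfl
  constructor
  · intro hx v hv
    exact (key v).mp (hx v (by simpa using hv))
  · intro hx v hv
    exact (key v).mpr (hx v (by simpa using hv))

theorem absU_eq : absU (piK K) (rhoK K T) = SUnits K T := by
  ext a
  rw [mem_absU, mem_sUnits_iff, ← MonoidHom.mem_ker, mem_ker_primeToT]
  refine forall_congr' fun v => forall_congr' fun _ => ?_
  rw [cntU_toPrincipalIdeal, neg_eq_zero]

theorem absP_subgroupOf_sUnits (hp : p ≠ 0) :
    (absP Kˣ p).subgroupOf (SUnits K T) = (powMonoidHom p : SUnits K T →* SUnits K T).range := by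
  ext x
  rw [Subgroup.mem_subgroupOf, mem_absP, MonoidHom.mem_range]
  constructor
  · rintro ⟨c, hc⟩
    have hcU : c ∈ SUnits K T := by
      rw [mem_sUnits_iff]
      intro v hv
      have h1 := (mem_sUnits_iff K T (x : Kˣ)).mp x.2 v hv
      rw [← hc, map_pow, toAdd_pow, nsmul_eq_mul] at h1
      rcases mul_eq_zero.mp h1 with h2 | h2
      · exact absurd (Int.natCast_eq_zero.mp h2) hp
      · exact h2
    exact ⟨⟨c, hcU⟩, Subtype.ext hc⟩
  · rintro ⟨c, hc⟩
    exact ⟨(c : Kˣ), congrArg Subtype.val hc⟩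

theorem relIndex_absP_sUnits (hp : p ≠ 0) :
    (absP Kˣ p).relIndex (SUnits K T) = powIndex (SUnits K T) p := by
  rw [Subgroup.relIndex, absP_subgroupOf_sUnits K T p hp]
  rfl

theorem classSubgroupT_eq :
    classSubgroupT K T = (rhoK K T).ker.map (clK K) :=
  closure_eq_map_ker_primeToT T

theorem card_torsion_congr {C : Type*} [CommGroup C] {H H' : Subgroup C} (h : H = H') :
    Nat.card {c : C ⧸ H // c ^ p = 1} = Nat.card {c : C ⧸ H' // c ^ p = 1} := by
  subst h
  rfl

/-- The index of the `p`-th powers in the Selmer group. -/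
theorem relIndex_absP_selmer (hp : p ≠ 0) {ζ : K} (hζ : IsPrimitiveRoot ζ p) :
    (absP Kˣ p).relIndex (absV p (piK K) (rhoK K T)) =
      p ^ (Fintype.card (InfinitePlace K) + T.card) * clTorsionCard K T p := by
  rw [relIndex_absP_absV p (piK K) (clK K) (rhoK K T)
    (fun _ _ h => units_pow_injective hp h) classGroup_mk_surjective classGroup_mk_ker
    (primeToT_idem T), absU_eq, relIndex_absP_sUnits K T p hp, powIndex_sUnits K T hp hζ]
  congr 1
  exact (card_torsion_congr p (classSubgroupT_eq K T)).symm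

end NF

/-- **KD-9**: the order of the Selmer group of a number field containing `ζ_p`. -/
theorem selmerCount : SelmerCountStatement := by
  intro K _ _ T p _ ζ hζ
  classical
  have hp : p ≠ 0 := (Fact.out : p.Prime).ne_zero
  set V : Subgroup Kˣ := absV p (piK K) (rhoK K T) with hV
  set P : Subgroup Kˣ := absP Kˣ p with hP
  have hcard : P.relIndex V =
      p ^ (Fintype.card (InfinitePlace K) + T.card) * clTorsionCard K T p :=
    relIndex_absP_selmer K T p hp hζ
  have hcl : clTorsionCard K T p ≠ 0 := by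
    unfold clTorsionCard
    have : Nonempty {c : ClT K T // c ^ p = 1} := ⟨⟨1, one_pow p⟩⟩
    exact Nat.card_pos.ne'
  have hidx : (P.subgroupOf V).index ≠ 0 := by
    change P.relIndex V ≠ 0
    rw [hcard]
    exact mul_ne_zero (pow_ne_zero _ hp) hcl
  have : Finite (V ⧸ P.subgroupOf V) := by
    apply Nat.finite_of_card_ne_zero
    rwa [← Subgroup.index_eq_card]
  let _ := Fintype.ofFinite (V ⧸ P.subgroupOf V)
  let rep : V ⧸ P.subgroupOf V → Kˣ := fun q => ((q.out : V) : Kˣ)
  have hmk : ∀ q : V ⧸ P.subgroupOf V, (QuotientGroup.mk (q.out : V) : V ⧸ P.subgroupOf V) = q :=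
    fun q => QuotientGroup.out_eq' q
  have hrep_inj : Function.Injective rep := by
    intro q q' h
    have h1 : (q.out : V) = q'.out := Subtype.ext h
    rw [← hmk q, ← hmk q', h1]
  -- equality of classes from a relation `b = a * c ^ p`
  have hclass : ∀ (a b : V) (c : Kˣ), (b : Kˣ) = a * c ^ p →
      (QuotientGroup.mk a : V ⧸ P.subgroupOf V) = QuotientGroup.mk b := by
    intro a b c h
    rw [QuotientGroup.eq, Subgroup.mem_subgroupOf, Subgroup.coe_mul, Subgroup.coe_inv, h,
      inv_mul_cancel_left]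
    exact mem_absP.mpr ⟨c, rfl⟩
  refine ⟨Finset.univ.image rep, ?_, ?_, ?_, ?_⟩
  · intro r hr
    obtain ⟨q, -, rfl⟩ := Finset.mem_image.mp hr
    exact (mem_absV_iff K T p _).mp (q.out : V).2
  · intro a ha
    have haV : a ∈ V := (mem_absV_iff K T p a).mpr ha
    set q : V ⧸ P.subgroupOf V := QuotientGroup.mk ⟨a, haV⟩ with hq
    have h1 := hmk q
    rw [hq, QuotientGroup.eq, Subgroup.mem_subgroupOf, Subgroup.coe_mul, Subgroup.coe_inv] at h1
    obtain ⟨c, hc⟩ := mem_absP.mp h1
    refine ⟨rep q, Finset.mem_image.mpr ⟨q, Finset.mem_univ _, rfl⟩, c, ?_⟩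
    change a = ((q.out : V) : Kˣ) * c ^ p
    rw [hc, mul_inv_cancel_left]
  · intro r hr r' hr' hrr'
    obtain ⟨q, -, rfl⟩ := Finset.mem_image.mp hr
    obtain ⟨q', -, rfl⟩ := Finset.mem_image.mp hr'
    obtain ⟨c, hc⟩ := hrr'
    have := hclass (q.out : V) (q'.out : V) c hc
    rw [hmk, hmk] at this
    rw [this]
  · rw [Finset.card_image_of_injective _ hrep_inj, Finset.card_univ, ← Nat.card_eq_fintype_card,
      ← Subgroup.index_eq_card]
    exact hcard

end Fermat.Agent.H38.Cft
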