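/-
helper38 (P-CFT / KD-9, row 587): structural lemmas of the Selmer exact sequence
`1 → U_T / U_T^p → V_T / (Kˣ)^p → Cl_T(K)[p] → 1` in concrete form (requested by helper54):
the class map `selmerClass : V_T → Cl_T(K)`, its kernel `U_T · (Kˣ)^p`, its image `Cl_T(K)[p]`,
and `U_T ∩ (Kˣ)^p = U_T^p`.
-/
import Fermat.Agent.H38.Cft.SelmerCountMain

set_option autoImplicit false

noncomputable section

namespace Fermat.Agent.H38.Cft

open IsDedekindDomain NumberField FractionalIdeal
open scoped nonZeroDivisors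
open Fermat.Agent.H54.Cft (OrdDvdAt classSubgroupT ClT clTorsionCard SelmerCountStatement)
open Fermat.Agent.H43.Cft (SUnits powIndex powIndex_sUnits)

variable (K : Type) [Field K] [NumberField K] (T : Finset (HeightOneSpectrum (𝓞 K))) (p : ℕ)

/-- The Selmer group `V_T = {a : p ∣ ord_v a for v ∉ T}` as a subgroup of `Kˣ`. -/
abbrev selmerV : Subgroup Kˣ := absV p (piK K) (rhoK K T)

theorem mem_selmerV_iff (a : Kˣ) :
    a ∈ selmerV K T p ↔ ∀ v : HeightOneSpectrum (𝓞 K), v ∉ T → OrdDvdAt p v a :=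
  mem_absV_iff K T p a

theorem sUnits_le_selmerV : SUnits K T ≤ selmerV K T p := by
  rw [← absU_eq]
  exact absU_le_absV p _ _

theorem pow_mem_selmerV (c : Kˣ) : c ^ p ∈ selmerV K T p :=
  absP_le_absV p _ _ (mem_absP.mpr ⟨c, rfl⟩)

/-- (c) `U_T ∩ (Kˣ)^p = U_T^p`: a `p`-th root of a `T`-unit is a `T`-unit. -/
theorem mem_sUnits_of_pow_mem {p : ℕ} (hp : p ≠ 0) {c : Kˣ} (h : c ^ p ∈ SUnits K T) :
    c ∈ SUnits K T := by
  rw [mem_sUnits_iff]
  intro v hv
  have h3 := (mem_sUnits_iff K T (c ^ p)).mp h v hv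
  rw [map_pow, toAdd_pow, nsmul_eq_mul] at h3
  rcases mul_eq_zero.mp h3 with h4 | h4
  · exact absurd (Int.natCast_eq_zero.mp h4) hp
  · exact h4

variable {p}

/-- The class map `V_T → Cl_T(K)`, `a ↦ [ (prime-to-T part of (a))^(1/p) ]`. -/
def selmerClass (hp : p ≠ 0) : selmerV K T p →* ClT K T :=
  (QuotientGroup.quotientMulEquivOfEq (classSubgroupT_eq K T).symm).toMonoidHom.comp
    (absPhi p (piK K) (clK K) (rhoK K T) (fun _ _ h => units_pow_injective hp h))

/-- Computation of the class map from any `p`-th root of the prime-to-`T` part of `(a)`. -/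
theorem selmerClass_eq (hp : p ≠ 0) (a : selmerV K T p) {J : (FractionalIdeal (𝓞 K)⁰ K)ˣ}
    (hJ : J ^ p = primeToT T (toPrincipalIdeal (𝓞 K) K (a : Kˣ))) :
    selmerClass K T hp a = QuotientGroup.mk (ClassGroup.mk K J) := by
  unfold selmerClass
  rw [MonoidHom.comp_apply, absPhi_apply,
    absRoot_eq_of_pow p (piK K) (rhoK K T) (fun _ _ h => units_pow_injective hp h) hJ]
  rfl

/-- (a) the kernel of the class map is `U_T · (Kˣ)^p`. -/
theorem selmerClass_eq_one_iff (hp : p ≠ 0) (a : selmerV K T p) :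
    selmerClass K T hp a = 1 ↔ ∃ u ∈ SUnits K T, ∃ c : Kˣ, (a : Kˣ) = u * c ^ p := by
  unfold selmerClass
  rw [MonoidHom.comp_apply, MulEquiv.coe_toMonoidHom, map_eq_one_iff _ (MulEquiv.injective _),
    ← MonoidHom.mem_ker,
    absPhi_ker p (piK K) (clK K) (rhoK K T) (fun _ _ h => units_pow_injective hp h)
      classGroup_mk_ker (primeToT_idem T), Subgroup.mem_subgroupOf, Subgroup.mem_sup, absU_eq]
  constructor
  · rintro ⟨u, hu, y, hy, h⟩
    obtain ⟨c, rfl⟩ := mem_absP.mp hy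
    exact ⟨u, hu, c, h.symm⟩
  · rintro ⟨u, hu, c, h⟩
    exact ⟨u, hu, c ^ p, mem_absP.mpr ⟨c, rfl⟩, h.symm⟩

/-- The class map takes values in the `p`-torsion. -/
theorem selmerClass_pow (hp : p ≠ 0) (a : selmerV K T p) : selmerClass K T hp a ^ p = 1 := by
  unfold selmerClass
  rw [MonoidHom.comp_apply, ← map_pow,
    ((absPhi_range p (piK K) (clK K) (rhoK K T) (fun _ _ h => units_pow_injective hp h)
      classGroup_mk_surjective classGroup_mk_ker (primeToT_idem T) _).mp ⟨a, rfl⟩), map_one]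

/-- (b) every class of `Cl_T(K)` killed by `p` is the class of a Selmer element. -/
theorem exists_selmerClass_eq (hp : p ≠ 0) (c : ClT K T) (hc : c ^ p = 1) :
    ∃ a : selmerV K T p, selmerClass K T hp a = c := by
  set e := QuotientGroup.quotientMulEquivOfEq (classSubgroupT_eq K T).symm with he
  have h1 : (e.symm c) ^ p = 1 := by rw [← map_pow, hc, map_one]
  obtain ⟨a, ha⟩ := (absPhi_range p (piK K) (clK K) (rhoK K T)
    (fun _ _ h => units_pow_injective hp h) classGroup_mk_surjective classGroup_mk_ker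
    (primeToT_idem T) _).mpr h1
  refine ⟨a, ?_⟩
  unfold selmerClass
  rw [MonoidHom.comp_apply, ha]
  exact e.apply_symm_apply c

/-- Two Selmer elements have the same class iff they differ by a `T`-unit times a `p`-th
power. -/
theorem selmerClass_eq_iff (hp : p ≠ 0) (a b : selmerV K T p) :
    selmerClass K T hp a = selmerClass K T hp b ↔
      ∃ u ∈ SUnits K T, ∃ c : Kˣ, (a : Kˣ) = b * (u * c ^ p) := by
  rw [← mul_inv_eq_one, ← map_inv, ← map_mul, selmerClass_eq_one_iff]
  constructor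
  · rintro ⟨u, hu, c, h⟩
    refine ⟨u, hu, c, ?_⟩
    rw [← h, Subgroup.coe_mul, Subgroup.coe_inv, mul_comm (a : Kˣ), mul_inv_cancel_left]
  · rintro ⟨u, hu, c, h⟩
    refine ⟨u, hu, c, ?_⟩
    rw [Subgroup.coe_mul, Subgroup.coe_inv, h, mul_comm (b : Kˣ), mul_inv_cancel_right]

end Fermat.Agent.H38.Cft
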